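/-
KL-A via `Lib/GoodRed`: `GaussData` for the Gauss valuation ring of `K(j, u) ⊇ F_N` over `K(j)`.
(proofs: helper90)
-/
import Fermat.Agent.Lib.GoodRed.Defs
import Fermat.Agent.S28.Export.Modular

set_option autoImplicit false
set_option linter.unusedSectionVars false

noncomputable section

namespace Fermat.Agent.S18.GR

open Polynomial ModularCurve Fermat.Agent.GoodRed Fermat.Agent.S28 Fermat.Agent.S28.Export
open Fermat.Agent.S18.Vert (chiS uS zlTo chiS_monic chiS_natDegree chiS_eval irreducible_chiS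
  chiS_comp uS_comp isUnit_derivative)

variable {K : Type*} [Field K] [CharZero K] (O : ValuationSubring K) {N ℓ : ℕ} [Fact ℓ.Prime]
  (D : UData N ℓ) (hℓ : O.LiesOverPrime ℓ)

/-- `j` as an element of `K(j, u)`. -/
def jBig : bigK O D hℓ :=
  ⟨jqModC K, IntermediateField.subset_adjoin _ _ (by simp)⟩

namespace Big

section Abs

variable {E F : Type*} [Field E] [Field F] [Algebra E F] [FiniteDimensional E F]
  [Algebra.IsSeparable E F]

/-- the coefficients of `minpolyDiv` lie in any subring containing the generator and the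
coefficients of the minimal polynomial -/
theorem coeff_minpolyDiv_mem (R : Subring F) {u : F} (hu : u ∈ R)
    (hc : ∀ i, algebraMap E F ((minpoly E u).coeff i) ∈ R) (i : ℕ) :
    (minpolyDiv E u).coeff i ∈ R := by
  by_contra H
  have : ∀ j, coeff (minpolyDiv E u) (i + j) ∉ R := by
    intro j
    induction j with
    | zero => exact H
    | succ j IH =>
      intro H'
      apply IH
      rw [coeff_minpolyDiv]
      exact add_mem (hc _) (mul_mem H' hu)
  apply this (natDegree (minpolyDiv E u) + 1)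
  rw [coeff_eq_zero_of_natDegree_lt]
  · exact zero_mem _
  · omega

/-- Abstract form of the separability of the residue extension: if `R ⊇ R₀[u]` and the different
`χ'(u)` is a unit of `R`, the trace form is nondegenerate modulo any element. -/
theorem sep_abs (R : Subring F) {u : F} (hgen : Algebra.adjoin E {u} = ⊤) (hu : u ∈ R)
    (hc : ∀ i, algebraMap E F ((minpoly E u).coeff i) ∈ R)
    (hd : (aeval u (derivative (minpoly E u)))⁻¹ ∈ R) (ϖ : F) (y : F)
    (hy : ∀ z ∈ R, ∃ w ∈ R, algebraMap E F (Algebra.trace E F (y * z)) = ϖ * w) :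
    ∃ w ∈ R, y = ϖ * w := by
  classical
  have hEu : IsIntegral E u := Algebra.IsIntegral.isIntegral u
  let pb := (Algebra.adjoin.powerBasis' hEu).map
    ((Subalgebra.equivOfEq _ _ hgen).trans (Subalgebra.topEquiv))
  have pbgen : pb.gen = u := by simp [pb]
  have hbd : ∀ i, pb.basis.traceDual i ∈ R := by
    intro i
    rw [Module.Basis.traceDual_powerBasis_eq, pbgen, div_eq_mul_inv]
    exact mul_mem (coeff_minpolyDiv_mem R hu hc _) hd
  have hrepr : ∀ i, pb.basis.repr y i = Algebra.trace E F (y * pb.basis.traceDual i) := by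
    intro i
    have := Module.Basis.traceDual_repr_apply pb.basis.traceDual y i
    rwa [Module.Basis.traceDual_traceDual, Algebra.traceForm_apply] at this
  choose w hw hwy using fun i => hy _ (hbd i)
  refine ⟨∑ i, w i * u ^ (i : ℕ), sum_mem fun i _ => mul_mem (hw i) (pow_mem hu _), ?_⟩
  conv_lhs => rw [← pb.basis.sum_repr y]
  rw [Finset.mul_sum]
  refine Finset.sum_congr rfl fun i _ => ?_
  rw [hrepr, Algebra.smul_def, hwy, PowerBasis.coe_basis, pbgen, mul_assoc]

end Abs

/-- `u` as an element of `K(j, u)`. -/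
def uBig : bigK O D hℓ :=
  ⟨uK O D hℓ, IntermediateField.subset_adjoin _ _ (by simp)⟩

section Emb

variable {O D hℓ}
variable {E : Type*} [Field E] [Algebra K E] [Algebra E (bigK O D hℓ)]
  [IsScalarTower K E (bigK O D hℓ)] {x : E} (hx : algebraMap E (bigK O D hℓ) x = jBig O D hℓ)

include hx

theorem coe_aeval (p : K[X]) :
    ((algebraMap E (bigK O D hℓ) (aeval x p) : bigK O D hℓ) : LaurentSeries K) =
      evalT (jqModC K) p := by
  have h1 : ((algebraMap E (bigK O D hℓ) (aeval x p) : bigK O D hℓ) : LaurentSeries K) =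
      ((bigK O D hℓ).val.comp (IsScalarTower.toAlgHom K E (bigK O D hℓ))) (aeval x p) := rfl
  have h2 : ((bigK O D hℓ).val.comp (IsScalarTower.toAlgHom K E (bigK O D hℓ))) x = jqModC K := by
    show ((algebraMap E (bigK O D hℓ) x : bigK O D hℓ) : LaurentSeries K) = _
    rw [hx]
    rfl
  rw [h1, ← Polynomial.aeval_algHom_apply, evalT_eq_aeval, h2]

/-- every element of `K(j)` comes from `E` -/
theorem exists_of_mem_jK {a : LaurentSeries K} (ha : a ∈ jK K) :
    ∃ c : E, ((algebraMap E (bigK O D hℓ) c : bigK O D hℓ) : LaurentSeries K) = a := by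
  rw [IntermediateField.mem_adjoin_simple_iff] at ha
  obtain ⟨r, s, rfl⟩ := ha
  refine ⟨aeval x r / aeval x s, ?_⟩
  rw [map_div₀]
  push_cast
  rw [coe_aeval hx, coe_aeval hx, evalT_eq_aeval, evalT_eq_aeval]

/-- the powers of `u` span -/
theorem exists_span_big (f : bigK O D hℓ) :
    ∃ c : ℕ → E, f = ∑ i ∈ Finset.range D.n, algebraMap E (bigK O D hℓ) (c i) * uBig O D hℓ ^ i := by
  obtain ⟨a, ha, hf⟩ := span_bigK O D hℓ f f.2
  choose c hc using fun i => exists_of_mem_jK hx (ha i)
  refine ⟨c, Subtype.ext ?_⟩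
  rw [hf]
  push_cast
  refine Finset.sum_congr rfl fun i _ => ?_
  rw [hc]
  rfl

theorem span_eq_top :
    Submodule.span E ((fun i => uBig O D hℓ ^ i) '' (Finset.range D.n : Set ℕ)) = ⊤ := by
  rw [eq_top_iff]
  intro f _
  obtain ⟨c, rfl⟩ := exists_span_big hx f
  refine Submodule.sum_mem _ fun i hi => ?_
  rw [← Algebra.smul_def]
  exact Submodule.smul_mem _ _ (Submodule.subset_span ⟨i, hi, rfl⟩)

theorem adjoin_eq_top : Algebra.adjoin E {uBig O D hℓ} = ⊤ := by
  rw [eq_top_iff]
  intro f _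
  obtain ⟨c, rfl⟩ := exists_span_big hx f
  exact sum_mem fun i _ => mul_mem (Subalgebra.algebraMap_mem _ _)
    (pow_mem (Algebra.self_mem_adjoin_singleton E _) i)

/-- evaluation of two-variable polynomials at `(j, u)` -/
theorem coe_eval₂ (Q : K[X][X]) :
    ((Q.eval₂ ((algebraMap E (bigK O D hℓ)).comp ((aeval x : K[X] →ₐ[K] E) : K[X] →+* E))
      (uBig O D hℓ) : bigK O D hℓ) : LaurentSeries K) =
      Q.eval₂ (evalT (jqModC K)) (uK O D hℓ) := by
  have h1 := hom_eval₂ Q ((algebraMap E (bigK O D hℓ)).comp ((aeval x : K[X] →ₐ[K] E) : K[X] →+* E))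
    (algebraMap (bigK O D hℓ) (LaurentSeries K)) (uBig O D hℓ)
  have h2 : (algebraMap (bigK O D hℓ) (LaurentSeries K)).comp
      ((algebraMap E (bigK O D hℓ)).comp ((aeval x : K[X] →ₐ[K] E) : K[X] →+* E)) =
      evalT (jqModC K) := RingHom.ext fun p => coe_aeval hx p
  rw [h2] at h1
  exact h1

variable (O D hℓ x) in
/-- `χ` over `E` -/
def chiE : E[X] := (chiK O D hℓ).map ((aeval x : K[X] →ₐ[K] E) : K[X] →+* E)

omit hx in
theorem chiE_monic : (chiE O D hℓ x).Monic := (chiS_monic D _).map _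

omit hx in
theorem chiE_natDegree : (chiE O D hℓ x).natDegree = D.n := by
  have hm : (chiK O D hℓ).Monic := chiS_monic D _
  rw [chiE, hm.natDegree_map, chiK_natDegree]

theorem coe_aeval_map (Q : K[X][X]) :
    ((aeval (uBig O D hℓ) (Q.map ((aeval x : K[X] →ₐ[K] E) : K[X] →+* E)) : bigK O D hℓ) :
      LaurentSeries K) = Q.eval₂ (evalT (jqModC K)) (uK O D hℓ) := by
  rw [aeval_def, eval₂_map, coe_eval₂ hx]

theorem aeval_chiE : aeval (uBig O D hℓ) (chiE O D hℓ x) = 0 := by
  apply Subtype.ext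
  rw [chiE, coe_aeval_map hx, chiK_eval]
  rfl

/-- fractions -/
theorem exists_frac (hgen : IntermediateField.adjoin K {x} = ⊤) (e : E) :
    ∃ r s : K[X], s ≠ 0 ∧
      ((algebraMap E (bigK O D hℓ) e : bigK O D hℓ) : LaurentSeries K) * evalT (jqModC K) s =
        evalT (jqModC K) r := by
  have he : e ∈ IntermediateField.adjoin K {x} := hgen ▸ IntermediateField.mem_top
  rw [IntermediateField.mem_adjoin_simple_iff] at he
  obtain ⟨r, s, rfl⟩ := he
  by_cases hs : aeval x s = 0
  · refine ⟨0, 1, one_ne_zero, ?_⟩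
    rw [hs, div_zero, map_zero, map_zero]
    simp
  · refine ⟨r, s, fun h => hs (by rw [h, map_zero]), ?_⟩
    rw [← coe_aeval hx, ← coe_aeval hx, ← MulMemClass.coe_mul, ← map_mul, div_mul_cancel₀ _ hs]

/-- the powers of `u` are independent over `E` -/
theorem li_big (hgen : IntermediateField.adjoin K {x} = ⊤) (c : ℕ → E)
    (hsum : ∑ i ∈ Finset.range D.n, algebraMap E (bigK O D hℓ) (c i) * uBig O D hℓ ^ i = 0) :
    ∀ i < D.n, c i = 0 := by
  choose r s hs hrs using exists_frac hx hgen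
  have hn := chiK_natDegree O D hℓ
  have h1 := li_of_irreducible (jqModC K) (uK O D hℓ) (evalJ_injective K) (chiK O D hℓ)
    (irreducible_chiS D _) (chiS_monic D _) (chiK_eval O D hℓ)
    (fun i => ((algebraMap E (bigK O D hℓ) (c i) : bigK O D hℓ) : LaurentSeries K))
    (fun i => r (c i)) (fun i => s (c i)) (fun i _ => hs _) (fun i _ => hrs _)
    (by
      rw [hn]
      have := congrArg (Subtype.val) hsum
      push_cast at this
      exact this)
  rw [hn] at h1
  intro i hi
  have h2 : algebraMap E (bigK O D hℓ) (c i) = 0 := Subtype.ext (h1 i hi)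
  exact (map_eq_zero _).mp h2

theorem minpoly_uBig (hgen : IntermediateField.adjoin K {x} = ⊤) :
    minpoly E (uBig O D hℓ) = chiE O D hℓ x := by
  have hint : IsIntegral E (uBig O D hℓ) := ⟨_, chiE_monic, aeval_chiE hx⟩
  symm
  apply eq_of_monic_of_dvd_of_natDegree_le (minpoly.monic hint) chiE_monic
    (minpoly.dvd _ _ (aeval_chiE hx))
  rw [chiE_natDegree]
  by_contra hlt
  rw [not_le] at hlt
  have h1 := minpoly.aeval E (uBig O D hℓ)
  rw [aeval_eq_sum_range' hlt] at h1
  have h2 := li_big hx hgen (fun i => (minpoly E (uBig O D hℓ)).coeff i) (by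
    rw [← h1]
    exact Finset.sum_congr rfl fun i _ => by rw [Algebra.smul_def]) _ hlt
  have h3 : (minpoly E (uBig O D hℓ)).coeff (minpoly E (uBig O D hℓ)).natDegree = 1 :=
    minpoly.monic hint
  rw [h3] at h2
  exact one_ne_zero h2

end Emb

section OPart

variable {O D hℓ}
variable {E : Type*} [Field E] [Algebra K E] [Algebra O E] [IsScalarTower O K E]
  [Algebra E (bigK O D hℓ)] [IsScalarTower K E (bigK O D hℓ)] {x : E}
  (hx : algebraMap E (bigK O D hℓ) x = jBig O D hℓ)

omit [CharZero K] in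
theorem aeval_O (y : E) (p : O[X]) : aeval y p = aeval y (p.map O.subtype) :=
  (aeval_map_algebraMap K y p).symm

include hx

theorem coe_aeval_O (p : O[X]) :
    ((algebraMap E (bigK O D hℓ) (aeval x p) : bigK O D hℓ) : LaurentSeries K) =
      iota O (evalT (jqModC O) p) := by
  rw [aeval_O, coe_aeval hx, iota_evalT, iota_jqModC]

theorem red_aeval_O (p : O[X]) :
    Red O ((algebraMap E (bigK O D hℓ) (aeval x p) : bigK O D hℓ) : LaurentSeries K)
      (evalT (rho O (jqModC O)) (p.map (IsLocalRing.residue O))) := by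
  rw [coe_aeval_O hx]
  exact red_evalT _ _

variable (O D hℓ x) in
/-- the structure map `O[X] → K(j,u)` -/
abbrev phiO : O[X] →+* bigK O D hℓ :=
  (algebraMap E (bigK O D hℓ)).comp ((aeval x : O[X] →ₐ[O] E) : O[X] →+* E)

theorem coe_eval₂_O (Q : O[X][X]) :
    ((Q.eval₂ (phiO O D hℓ x) (uBig O D hℓ) : bigK O D hℓ) : LaurentSeries K) =
      iota O (Q.eval₂ (evalJ O) (uO O D hℓ)) := by
  have h1 := hom_eval₂ Q (phiO O D hℓ x) (algebraMap (bigK O D hℓ) (LaurentSeries K))
    (uBig O D hℓ)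
  have h2 : (algebraMap (bigK O D hℓ) (LaurentSeries K)).comp (phiO O D hℓ x) =
      (iota O).comp (evalJ O) := RingHom.ext fun p => coe_aeval_O hx p
  rw [h2] at h1
  rw [hom_eval₂]
  exact h1

theorem isIntegralElem_uBig : (phiO O D hℓ x).IsIntegralElem (uBig O D hℓ) := by
  refine ⟨chiS D (zlTo O hℓ), chiS_monic D _, Subtype.ext ?_⟩
  rw [coe_eval₂_O hx]
  have := chiS_eval D (zlTo O hℓ)
  rw [uO, this, map_zero]
  rfl

omit hx in
theorem chiE_eq : chiE O D hℓ x =
    (chiS D (zlTo O hℓ)).map ((aeval x : O[X] →ₐ[O] E) : O[X] →+* E) := by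
  rw [chiE, chiK, ← chiS_comp, Polynomial.map_map]
  congr 1
  exact RingHom.ext fun p => (aeval_O x p).symm

theorem phiO_mem (p : O[X]) :
    phiO O D hℓ x p ∈ gaussRing O (bigK O D hℓ) (isGood_bigK O D hℓ) :=
  ⟨_, red_aeval_O hx p⟩

omit hx in
theorem uBig_mem : uBig O D hℓ ∈ gaussRing O (bigK O D hℓ) (isGood_bigK O D hℓ) :=
  ⟨_, red_uK O D hℓ⟩

theorem coeff_chiE_mem (i : ℕ) : algebraMap E (bigK O D hℓ) ((chiE O D hℓ x).coeff i) ∈
    gaussRing O (bigK O D hℓ) (isGood_bigK O D hℓ) := by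
  rw [chiE_eq, coeff_map]
  exact phiO_mem hx _

theorem inv_derivative_mem : (aeval (uBig O D hℓ) (derivative (chiE O D hℓ x)))⁻¹ ∈
    gaussRing O (bigK O D hℓ) (isGood_bigK O D hℓ) := by
  have h1 : ((aeval (uBig O D hℓ) (derivative (chiE O D hℓ x)) : bigK O D hℓ) :
      LaurentSeries K) = iota O ((derivative (chiS D (zlTo O hℓ))).eval₂ (evalJ O) (uO O D hℓ)) := by
    rw [chiE_eq, derivative_map, aeval_def, eval₂_map, ← coe_eval₂_O hx]
  have hu := isUnit_derivative D (zlTo O hℓ)
  have h2 : rho O ((derivative (chiS D (zlTo O hℓ))).eval₂ (evalJ O) (uO O D hℓ)) ≠ 0 :=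
    (hu.map (rho O)).ne_zero
  have h3 := (red_iota ((derivative (chiS D (zlTo O hℓ))).eval₂ (evalJ O) (uO O D hℓ))).inv h2
  rw [← h1] at h3
  exact ⟨_, by simpa using h3⟩

end OPart

end Big

/-- `K(j,u)` is finite over any field `E` mapping onto `K(j)`. -/
theorem finiteDimensional_big {E : Type*} [Field E] [Algebra K E] [Algebra E (bigK O D hℓ)]
    [IsScalarTower K E (bigK O D hℓ)] (x : E) (hx : algebraMap E (bigK O D hℓ) x = jBig O D hℓ) :
    FiniteDimensional E (bigK O D hℓ) := by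
  rw [FiniteDimensional, Module.finite_def, ← Big.span_eq_top hx]
  exact Submodule.fg_span ((Finset.finite_toSet _).image _)

namespace Big

section Prim

variable {O}

omit [CharZero K] in
theorem isPrim_iff {ϖ : O} (hϖ : IsLocalRing.maximalIdeal O = Ideal.span {ϖ}) (p : O[X]) :
    IsPrim ϖ p ↔ p.map (IsLocalRing.residue O) ≠ 0 := by
  have h : ∀ a : O, ϖ ∣ a ↔ IsLocalRing.residue O a = 0 := fun a => by
    rw [IsLocalRing.residue_eq_zero_iff, hϖ, Ideal.mem_span_singleton]
  constructor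
  · rintro ⟨i, hi⟩ h0
    apply hi
    rw [h, ← coeff_map, h0, coeff_zero]
  · intro hne
    by_contra hcon
    apply hne
    ext i
    rw [coeff_map, coeff_zero, ← h]
    by_contra hi
    exact hcon ⟨i, hi⟩

end Prim

section Integral

variable {O D hℓ}
variable {E : Type*} [Field E] [Algebra K E] [Algebra O E] [IsScalarTower O K E]
  [Algebra E (bigK O D hℓ)] [IsScalarTower K E (bigK O D hℓ)] {x : E}
  (hx : algebraMap E (bigK O D hℓ) x = jBig O D hℓ)

include hx

theorem exists_integral {ϖ : O} (hϖ : IsLocalRing.maximalIdeal O = Ideal.span {ϖ})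
    (y : bigK O D hℓ) (hy : y ∈ gaussRing O (bigK O D hℓ) (isGood_bigK O D hℓ)) :
    ∃ s : O[X], IsPrim ϖ s ∧ IntO O x (algebraMap E (bigK O D hℓ) (aeval x s) * y) := by
  classical
  obtain ⟨g, hg⟩ := hy
  obtain ⟨a, ab, ha, hab, hya, -⟩ := exists_coeffs_of_red O D hℓ y.2 hg
  have key : ∀ i, ∃ r s : O[X], s.map (IsLocalRing.residue O) ≠ 0 ∧
      (i < D.n → a i * iota O (evalT (jqModC O) s) = iota O (evalT (jqModC O) r)) := by
    intro i
    by_cases hi : i < D.n
    · have hai : a i ∈ IntermediateField.adjoin K {iota O (jqModC O)} := by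
        rw [iota_jqModC]; exact ha i
      obtain ⟨r, s, hs, h, -⟩ :=
        exists_frac_of_red (jqModC O) (injective_evalT_rho O) hai (hab i hi)
      exact ⟨r, s, hs, fun _ => h⟩
    · exact ⟨0, 1, by simp, fun h => absurd h hi⟩
  choose r s hs hrs using key
  choose c hc using fun i => exists_of_mem_jK hx (ha i)
  have hy' : y = ∑ i ∈ Finset.range D.n, algebraMap E (bigK O D hℓ) (c i) * uBig O D hℓ ^ i := by
    apply Subtype.ext
    rw [hya]
    push_cast
    refine Finset.sum_congr rfl fun i _ => ?_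
    rw [hc]
    rfl
  have hrel : ∀ i < D.n, algebraMap E (bigK O D hℓ) (c i) * phiO O D hℓ x (s i) =
      phiO O D hℓ x (r i) := by
    intro i hi
    apply Subtype.ext
    have h1 := hrs i hi
    rw [← hc i, ← coe_aeval_O hx, ← coe_aeval_O hx] at h1
    exact h1
  refine ⟨∏ i ∈ Finset.range D.n, s i, (isPrim_iff hϖ _).mpr ?_, ?_⟩
  · rw [Polynomial.map_prod]
    exact Finset.prod_ne_zero_iff.mpr fun i _ => hs i
  · show (phiO O D hℓ x).IsIntegralElem (phiO O D hℓ x (∏ i ∈ Finset.range D.n, s i) * y)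
    let _ : Algebra O[X] (bigK O D hℓ) := (phiO O D hℓ x).toAlgebra
    show IsIntegral O[X] _
    rw [hy', Finset.mul_sum]
    refine IsIntegral.sum _ fun i hi => ?_
    have h2 : phiO O D hℓ x (∏ i ∈ Finset.range D.n, s i) *
        (algebraMap E (bigK O D hℓ) (c i) * uBig O D hℓ ^ i) =
        phiO O D hℓ x (r i * ∏ l ∈ (Finset.range D.n).erase i, s l) * uBig O D hℓ ^ i := by
      rw [← Finset.mul_prod_erase _ _ hi, map_mul, map_mul, ← hrel i (Finset.mem_range.1 hi)]
      ring
    rw [h2]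
    have h3 : IsIntegral O[X] (uBig O D hℓ) := isIntegralElem_uBig hx
    exact (isIntegral_algebraMap (R := O[X]) (A := bigK O D hℓ)).mul (h3.pow i)

end Integral

end Big

/-- The Gauss valuation ring of `K(j, u)` is Gauss data over `K(j)`. -/
theorem gaussData_big {E : Type*} [Field E] [Algebra K E] [Algebra O E] [IsScalarTower O K E]
    [Algebra E (bigK O D hℓ)] [IsScalarTower K E (bigK O D hℓ)]
    (x : E) (hx : algebraMap E (bigK O D hℓ) x = jBig O D hℓ)
    (hgen : IntermediateField.adjoin K {x} = ⊤)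
    (ϖ : O) (hϖ : IsLocalRing.maximalIdeal O = Ideal.span {ϖ}) :
    GaussData O ϖ (gaussRing O (bigK O D hℓ) (isGood_bigK O D hℓ)) x := by
  have hconst : ∀ a : O, algebraMap E (bigK O D hℓ) (algebraMap O E a) =
      algebraMap K (bigK O D hℓ) (a : K) := by
    intro a
    rw [IsScalarTower.algebraMap_apply O K E, ← IsScalarTower.algebraMap_apply K E]
    rfl
  have hϖm : ϖ ∈ IsLocalRing.maximalIdeal O := by
    rw [hϖ]; exact Ideal.mem_span_singleton_self ϖ
  refine ⟨?_, ?_, ?_, ?_, ?_, ?_⟩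
  · intro a
    rw [hconst, algebraMap_mem_gaussRing_iff]
    exact a.2
  · rw [hconst, ← map_inv₀, algebraMap_mem_gaussRing_iff]
    intro hinv
    have hϖ0 : (ϖ : K) ≠ 0 := by
      intro h0
      have h1 : ϖ = 0 := Subtype.ext h0
      have h2 := hℓ
      rw [ValuationSubring.LiesOverPrime, ValuationSubring.mem_nonunits_iff_exists_mem_maximalIdeal]
        at h2
      obtain ⟨h3, h4⟩ := h2
      rw [hϖ, h1, Ideal.mem_span_singleton, zero_dvd_iff] at h4
      have h5 : (ℓ : K) = 0 := congrArg Subtype.val h4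
      exact (Nat.cast_ne_zero.mpr (Fact.out : ℓ.Prime).ne_zero) h5
    apply (IsLocalRing.mem_maximalIdeal _).mp hϖm
    exact IsUnit.of_mul_eq_one (⟨(ϖ : K)⁻¹, hinv⟩ : O) (Subtype.ext (mul_inv_cancel₀ hϖ0))
  · intro y hy hyinv
    have hy0 : y ≠ 0 := by
      rintro rfl
      apply hyinv
      rw [inv_zero]
      exact zero_mem _
    obtain ⟨c, hc0, v, hv⟩ := exists_smul_isUnit (isGood_bigK O D hℓ) y hy0
    have hvv : ((v : gaussRing O (bigK O D hℓ) (isGood_bigK O D hℓ)) : bigK O D hℓ) *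
        (((v⁻¹ : (gaussRing O (bigK O D hℓ) (isGood_bigK O D hℓ))ˣ) :
          gaussRing O (bigK O D hℓ) (isGood_bigK O D hℓ)) : bigK O D hℓ) = 1 :=
      congrArg Subtype.val (Units.mul_inv v)
    have hcO : c ∈ O := by
      rw [← algebraMap_mem_gaussRing_iff (isGood_bigK O D hℓ)]
      have : algebraMap K (bigK O D hℓ) c = y *
          (((v⁻¹ : (gaussRing O (bigK O D hℓ) (isGood_bigK O D hℓ))ˣ) :
          gaussRing O (bigK O D hℓ) (isGood_bigK O D hℓ)) : bigK O D hℓ) := by
        rw [hv, mul_assoc, hvv, mul_one]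
      rw [this]
      exact mul_mem hy (Subtype.mem _)
    have hcm : (⟨c, hcO⟩ : O) ∈ IsLocalRing.maximalIdeal O := by
      rw [IsLocalRing.mem_maximalIdeal, mem_nonunits_iff]
      intro hu
      obtain ⟨d, hd⟩ := hu.exists_right_inv
      have hd' : c * (d : K) = 1 := congrArg Subtype.val hd
      apply hyinv
      have : y⁻¹ = algebraMap K (bigK O D hℓ) (d : K) *
          (((v⁻¹ : (gaussRing O (bigK O D hℓ) (isGood_bigK O D hℓ))ˣ) :
          gaussRing O (bigK O D hℓ) (isGood_bigK O D hℓ)) : bigK O D hℓ) := by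
        refine inv_eq_of_mul_eq_one_right ?_
        rw [hv, mul_mul_mul_comm, ← map_mul, hd', map_one, hvv, one_mul]
      rw [this]
      exact mul_mem ((algebraMap_mem_gaussRing_iff _ _).mpr d.2) (Subtype.mem _)
    rw [hϖ, Ideal.mem_span_singleton] at hcm
    obtain ⟨c', hc'⟩ := hcm
    refine ⟨algebraMap K (bigK O D hℓ) (c' : K) * v,
      mul_mem ((algebraMap_mem_gaussRing_iff _ _).mpr c'.2) (Subtype.mem _), ?_⟩
    have hc'' : c = (ϖ : K) * (c' : K) := congrArg Subtype.val hc'
    rw [hconst, ← mul_assoc, ← map_mul, ← hc'', hv]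
  · intro p hp
    refine ⟨Big.phiO_mem hx p, ?_⟩
    have h1 := (Big.red_aeval_O hx p).inv
      (evalT_rho_ne_zero (jqModC O) (injective_evalT_rho O) ((Big.isPrim_iff hϖ p).mp hp))
    exact ⟨_, by simpa using h1⟩
  · exact fun y hy => Big.exists_integral hx hϖ y hy
  · have := finiteDimensional_big O D hℓ x hx
    have : CharZero E := charZero_of_injective_algebraMap (algebraMap K E).injective
    intro y _ hyz
    have hm := Big.minpoly_uBig hx hgen
    exact Big.sep_abs (gaussRing O (bigK O D hℓ) (isGood_bigK O D hℓ)).toSubring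
      (Big.adjoin_eq_top hx) Big.uBig_mem (by rw [hm]; exact Big.coeff_chiE_mem hx)
      (by rw [hm]; exact Big.inv_derivative_mem hx) _ y hyz

end Fermat.Agent.S18.GR

end
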